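import Mathlib
import Fermat.Prelude.Def_CuspForm_HeckeAlgebra
import Fermat.Agent.AL.Newform

/-!
# The bound `|a_q| < q + 1` for the Hecke eigenvalues of a cusp form of weight two
-/

set_option autoImplicit false
set_option linter.style.haveILetI false

noncomputable section

open UpperHalfPlane Filter Topology ModularGroup CongruenceSubgroup ModularFormClass
open scoped MatrixGroups ModularForm Modular

namespace Fermat.Agent.LM

/-- A finite family of continuous functions vanishing at infinity, permuted by `SL₂(ℤ)`, attains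
its maximum. -/
theorem exists_max_family {ι : Type*} [Finite ι] [Nonempty ι] (f : ι → ℍ → ℝ)
    (hc : ∀ i, Continuous (f i)) (h0 : ∀ i τ, 0 ≤ f i τ)
    (hinf : ∀ i, Tendsto (f i) atImInfty (𝓝 0))
    (hinv : ∀ (g : SL(2, ℤ)) (τ : ℍ) (i : ι), ∃ j, f i τ = f j (g • τ)) :
    ∃ (i : ι) (z : ℍ), ∀ j τ, f j τ ≤ f i z := by
  classical
  by_cases hz : ∀ i τ, f i τ = 0
  · obtain ⟨i⟩ := ‹Nonempty ι›
    exact ⟨i, UpperHalfPlane.I, fun j τ => by rw [hz, hz]⟩
  push Not at hz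
  obtain ⟨i₁, τ₀, hτ₀⟩ := hz
  obtain ⟨g₀, hg₀⟩ := exists_smul_mem_fd τ₀
  obtain ⟨i₁', hi₁'⟩ := hinv g₀ τ₀ i₁
  set τ₁ := g₀ • τ₀ with hτ₁
  have hpos : 0 < f i₁' τ₁ := lt_of_le_of_ne (h0 _ _) (by rw [← hi₁']; exact hτ₀.symm)
  have hY : ∀ i, ∃ Y : ℝ, ∀ τ : ℍ, Y ≤ τ.im → f i τ < f i₁' τ₁ := by
    intro i
    have h1 := (hinf i).eventually (gt_mem_nhds hpos)
    rw [atImInfty, eventually_comap, eventually_atTop] at h1
    obtain ⟨Y, hY⟩ := h1
    exact ⟨Y, fun τ hτ => hY _ hτ τ rfl⟩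
  choose Y hY using hY
  obtain ⟨Y', hY'⟩ := (Set.finite_range Y).bddAbove
  have hY'' : ∀ i (τ : ℍ), Y' ≤ τ.im → f i τ < f i₁' τ₁ := fun i τ hτ =>
    hY i τ ((hY' ⟨i, rfl⟩).trans hτ)
  have hne : (truncatedFundamentalDomain Y').Nonempty := by
    refine ⟨τ₁, hg₀, ?_⟩
    by_contra h
    exact lt_irrefl _ (hY'' i₁' τ₁ (not_le.mp h).le)
  have hmax : ∀ i, ∃ z ∈ truncatedFundamentalDomain Y',
      ∀ τ ∈ truncatedFundamentalDomain Y', f i τ ≤ f i z := by
    intro i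
    obtain ⟨z, hz, hz'⟩ := (isCompact_truncatedFundamentalDomain Y').exists_isMaxOn hne
      (hc i).continuousOn
    exact ⟨z, hz, fun τ hτ => hz' hτ⟩
  choose z hz hz' using hmax
  obtain ⟨i, hi⟩ := Finite.exists_max (fun i => f i (z i))
  refine ⟨i, z i, fun j τ => ?_⟩
  obtain ⟨g, hg⟩ := exists_smul_mem_fd τ
  obtain ⟨j', hj'⟩ := hinv g τ j
  rw [hj']
  by_cases h : (g • τ).im ≤ Y'
  · exact (hz' j' _ ⟨hg, h⟩).trans (hi j')
  · refine (hY'' j' _ (not_le.mp h).le).le.trans ?_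
    have h2 : τ₁ ∈ truncatedFundamentalDomain Y' := by
      refine ⟨hg₀, ?_⟩
      by_contra h
      exact lt_irrefl _ (hY'' i₁' τ₁ (not_le.mp h).le)
    exact (hz' i₁' _ h2).trans (hi i₁')

/-- A continuous function, invariant under a subgroup of finite index, vanishing at all cusps,
attains its maximum. -/
theorem exists_max_of_subgroup_invariant {f : ℍ → ℝ} (hc : Continuous f) (h0 : ∀ τ, 0 ≤ f τ)
    (hinf : ∀ g : SL(2, ℤ), Tendsto (fun τ => f (g • τ)) atImInfty (𝓝 0))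
    {Γ : Subgroup SL(2, ℤ)} [Γ.FiniteIndex] (hinv : ∀ g ∈ Γ, ∀ τ, f (g • τ) = f τ) :
    ∃ z, ∀ τ, f τ ≤ f z := by
  let f' : SL(2, ℤ) ⧸ Γ → ℍ → ℝ := fun γ τ => Quotient.lift (fun g ↦ f (g⁻¹ • τ)) (fun g h hgh ↦ by
    obtain ⟨j, hj, hj'⟩ : ∃ j ∈ Γ, h = g * j := by
      rw [← Quotient.eq_iff_equiv, Quotient.eq, QuotientGroup.leftRel_apply] at hgh
      exact ⟨g⁻¹ * h, hgh, (mul_inv_cancel_left g h).symm⟩
    simp [-sl_moeb, hj', mul_smul, hinv j⁻¹ (inv_mem hj)]) γ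
  have hf'c : ∀ γ, Continuous (f' γ) := fun γ => QuotientGroup.induction_on γ fun g ↦ by
    simp only [sl_moeb, f']
    fun_prop
  have hf'0 : ∀ γ τ, 0 ≤ f' γ τ := fun γ τ => QuotientGroup.induction_on γ fun g ↦ h0 _
  have hf'i : ∀ γ, Tendsto (f' γ) atImInfty (𝓝 0) := fun γ =>
    QuotientGroup.induction_on γ fun g ↦ hinf g⁻¹
  have hf'inv : ∀ (g : SL(2, ℤ)) (τ : ℍ) (γ : SL(2, ℤ) ⧸ Γ), f' γ τ = f' (g • γ) (g • τ) := by
    intro g τ γ
    induction γ using QuotientGroup.induction_on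
    simp [-sl_moeb, f', mul_smul]
  have : Finite (SL(2, ℤ) ⧸ Γ) := Subgroup.finite_quotient_of_finiteIndex
  obtain ⟨γ, z, hz⟩ := exists_max_family f' hf'c hf'0 hf'i (fun g τ γ => ⟨g • γ, hf'inv g τ γ⟩)
  obtain ⟨g, rfl⟩ := QuotientGroup.mk_surjective γ
  refine ⟨g⁻¹ • z, fun τ => ?_⟩
  have h1 := hz (QuotientGroup.mk 1) τ
  change f ((1 : SL(2, ℤ))⁻¹ • τ) ≤ f (g⁻¹ • z) at h1
  rwa [inv_one, one_smul] at h1

variable {N : ℕ} [NeZero N]

open ConjAct Pointwise in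
/-- The function `|f(τ)| Im τ` attains its maximum. -/
theorem exists_max_norm (f : CuspForm (Gamma0 N) 2) :
    ∃ z : ℍ, ∀ τ : ℍ, ‖f τ‖ * τ.im ≤ ‖f z‖ * z.im := by
  have hP : ∀ τ : ℍ, ‖petersson 2 f f τ‖ = (‖f τ‖ * τ.im) ^ 2 := by
    intro τ
    rw [petersson, norm_mul, norm_mul, Complex.norm_conj]
    have : ‖((τ.im : ℂ) ^ (2 : ℤ))‖ = τ.im ^ 2 := by
      rw [norm_zpow, Complex.norm_real, Real.norm_of_nonneg τ.im_pos.le]
      norm_cast
    rw [this]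
    ring
  obtain ⟨z, hz⟩ := exists_max_of_subgroup_invariant (f := fun τ => ‖petersson 2 f f τ‖)
    (Γ := Gamma0 N) (by fun_prop) (fun τ => norm_nonneg _) (fun g => by
      simp_rw [← UpperHalfPlane.petersson_slash_SL]
      rw [← tendsto_zero_iff_norm_tendsto_zero]
      have : ((toConjAct (g : GL (Fin 2) ℝ)⁻¹) • (Gamma0 N : Subgroup (GL (Fin 2) ℝ))).IsArithmetic := by
        simpa [(show Rat.castHom ℝ = algebraMap ℚ ℝ by rfl), map_inv, Subgroup.map_map]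
          using! Subgroup.IsArithmetic.conj (Gamma0 N : Subgroup (GL (Fin 2) ℝ)) (Matrix.SpecialLinearGroup.mapGL ℚ g)⁻¹
      exact (CuspFormClass.zero_at_infty <| CuspForm.translate f g).petersson_isZeroAtImInfty_left 2 _
        (ModularForm.translate f g)) (fun g hg τ => by
      exact SlashInvariantFormClass.norm_petersson_smul (Γ := (Gamma0 N : Subgroup (GL (Fin 2) ℝ)))
        (Subgroup.mem_map_of_mem _ hg))
  refine ⟨z, fun τ => ?_⟩
  have h1 := hz τ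
  simp only [hP] at h1
  exact le_of_sq_le_sq h1 (mul_nonneg (norm_nonneg _) z.im_pos.le)

/-- `|f(τ)| Im τ` tends to zero at infinity. -/
theorem tendsto_norm_mul_im (f : CuspForm (Gamma0 N) 2) :
    Tendsto (fun τ : ℍ => ‖f τ‖ * τ.im) atImInfty (𝓝 0) := by
  have hP : ∀ τ : ℍ, ‖petersson 2 f f τ‖ = (‖f τ‖ * τ.im) ^ 2 := by
    intro τ
    rw [petersson, norm_mul, norm_mul, Complex.norm_conj]
    have : ‖((τ.im : ℂ) ^ (2 : ℤ))‖ = τ.im ^ 2 := by
      rw [norm_zpow, Complex.norm_real, Real.norm_of_nonneg τ.im_pos.le]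
      norm_cast
    rw [this]
    ring
  have h1 : Tendsto (fun τ : ℍ => ‖petersson 2 f f τ‖) atImInfty (𝓝 0) := by
    rw [← tendsto_zero_iff_norm_tendsto_zero]
    exact (CuspFormClass.zero_at_infty f).petersson_isZeroAtImInfty_left 2
      (Gamma0 N : Subgroup (GL (Fin 2) ℝ)) f
  have h2 := (Real.continuous_sqrt.tendsto 0).comp h1
  rw [Real.sqrt_zero] at h2
  refine h2.congr fun τ => ?_
  rw [Function.comp_apply, hP, Real.sqrt_sq (mul_nonneg (norm_nonneg _) τ.im_pos.le)]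

theorem im_heckeMatrix_smul {q : ℕ} (hq : q ≠ 0) (j : ℕ) (τ : ℍ) :
    (ModularForm.heckeMatrix q j • τ).im = τ.im / q := by
  have h1 := congrArg Complex.im (ModularForm.coe_heckeMatrix_smul hq j τ)
  have h2 : (((τ : ℂ) + j) / q).im = τ.im / q := by
    rw [← Complex.ofReal_natCast q, Complex.div_ofReal_im]
    simp
  rw [← h2, ← h1]
  rfl

theorem im_heckeDiagMatrix_smul {q : ℕ} (hq : q ≠ 0) (τ : ℍ) :
    (ModularForm.heckeDiagMatrix q • τ).im = q * τ.im := by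
  have h1 := congrArg Complex.im (ModularForm.coe_heckeDiagMatrix_smul hq τ)
  have h2 : ((q : ℂ) * (τ : ℂ)).im = q * τ.im := by
    rw [← Complex.ofReal_natCast q, Complex.im_ofReal_mul]
    rfl
  rw [← h2, ← h1]
  rfl

omit [NeZero N] in
/-- the Hecke operator and `|f(τ)| Im τ`. -/
theorem norm_mul_le {q : ℕ} (hq : q.Prime) (hqN : ¬ q ∣ N) {f : CuspForm (Gamma0 N) 2} {a : ℂ}
    (ha : CuspForm.heckeTLin 2 hq hqN f = a • f) {C : ℝ} (hC : ∀ τ : ℍ, ‖f τ‖ * τ.im ≤ C) (τ : ℍ) :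
    ‖a‖ * (‖f τ‖ * τ.im) ≤ q * C + ‖f (ModularForm.heckeDiagMatrix q • τ)‖ *
      (ModularForm.heckeDiagMatrix q • τ).im := by
  have hq0 : q ≠ 0 := hq.ne_zero
  have hqR : (0 : ℝ) < q := by exact_mod_cast hq.pos
  have h1 : a * f τ = (∑ j ∈ Finset.range q, (q : ℂ)⁻¹ * f (ModularForm.heckeMatrix q j • τ)) +
      (q : ℂ) * f (ModularForm.heckeDiagMatrix q • τ) := by
    have h2 := congrArg (fun g : CuspForm (Gamma0 N) 2 => g τ) ha
    have h3 : (CuspForm.heckeTLin 2 hq hqN f) τ = ModularForm.heckeT 2 q (⇑f) τ := rfl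
    have h4 : (a • f) τ = a * f τ := rfl
    rw [← h4]
    refine h2.symm.trans (h3.trans ?_)
    rw [ModularForm.heckeT_def, Pi.add_apply, Finset.sum_apply,
      ModularForm.slash_heckeDiagMatrix_apply 2 hq0]
    congr 1
    · exact Finset.sum_congr rfl fun j _ => ModularForm.slash_heckeMatrix_apply 2 hq0 j _ τ
    · norm_num
  have h5 : ‖a‖ * ‖f τ‖ ≤ (∑ j ∈ Finset.range q, (q : ℝ)⁻¹ *
      ‖f (ModularForm.heckeMatrix q j • τ)‖) + q * ‖f (ModularForm.heckeDiagMatrix q • τ)‖ := by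
    rw [← norm_mul, h1]
    refine (norm_add_le _ _).trans (add_le_add ((norm_sum_le _ _).trans ?_) ?_)
    · refine Finset.sum_le_sum fun j _ => ?_
      rw [norm_mul, norm_inv, Complex.norm_natCast]
    · rw [norm_mul, Complex.norm_natCast]
  calc ‖a‖ * (‖f τ‖ * τ.im) = (‖a‖ * ‖f τ‖) * τ.im := by ring
    _ ≤ ((∑ j ∈ Finset.range q, (q : ℝ)⁻¹ * ‖f (ModularForm.heckeMatrix q j • τ)‖) +
        q * ‖f (ModularForm.heckeDiagMatrix q • τ)‖) * τ.im :=
        mul_le_mul_of_nonneg_right h5 τ.im_pos.le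
    _ = (∑ j ∈ Finset.range q, ‖f (ModularForm.heckeMatrix q j • τ)‖ *
        (ModularForm.heckeMatrix q j • τ).im) + ‖f (ModularForm.heckeDiagMatrix q • τ)‖ *
      (ModularForm.heckeDiagMatrix q • τ).im := by
        rw [add_mul, Finset.sum_mul, im_heckeDiagMatrix_smul hq0]
        congr 1
        · refine Finset.sum_congr rfl fun j _ => ?_
          rw [im_heckeMatrix_smul hq0]
          ring
        · ring
    _ ≤ q * C + ‖f (ModularForm.heckeDiagMatrix q • τ)‖ *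
      (ModularForm.heckeDiagMatrix q • τ).im := by
        refine add_le_add ?_ le_rfl
        refine (Finset.sum_le_sum fun j _ => hC _).trans ?_
        rw [Finset.sum_const, Finset.card_range, nsmul_eq_mul]

/-- **The eigenvalues of `T_q` on cusp forms of weight two are of absolute value `< q + 1`.** -/
theorem norm_eigenvalue_lt {q : ℕ} (hq : q.Prime) (hqN : ¬ q ∣ N) {f : CuspForm (Gamma0 N) 2}
    (hf : f ≠ 0) {a : ℂ} (ha : CuspForm.heckeTLin 2 hq hqN f = a • f) : ‖a‖ < q + 1 := by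
  by_contra hcon
  push Not at hcon
  obtain ⟨z, hz⟩ := exists_max_norm f
  set C := ‖f z‖ * z.im with hC
  have hC0 : 0 ≤ C := mul_nonneg (norm_nonneg _) z.im_pos.le
  have hstep : ∀ τ : ℍ, C ≤ ‖f τ‖ * τ.im → C ≤ ‖f (ModularForm.heckeDiagMatrix q • τ)‖ *
      (ModularForm.heckeDiagMatrix q • τ).im := by
    intro τ hτ
    have h1 := norm_mul_le hq hqN ha hz τ
    have h2 : ((q : ℝ) + 1) * C ≤ ‖a‖ * (‖f τ‖ * τ.im) :=
      mul_le_mul hcon hτ hC0 (norm_nonneg _)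
    linarith
  have hit : ∀ n : ℕ, ∃ τ : ℍ, C ≤ ‖f τ‖ * τ.im ∧ (q : ℝ) ^ n * z.im ≤ τ.im := by
    intro n
    induction n with
    | zero => exact ⟨z, le_rfl, by rw [pow_zero, one_mul]⟩
    | succ n ih =>
      obtain ⟨τ, h1, h2⟩ := ih
      refine ⟨ModularForm.heckeDiagMatrix q • τ, hstep τ h1, ?_⟩
      rw [im_heckeDiagMatrix_smul hq.ne_zero, pow_succ', mul_assoc]
      exact mul_le_mul_of_nonneg_left h2 (Nat.cast_nonneg _)
  have hCz : C ≤ 0 := by
    refine le_of_forall_pos_lt_add fun ε hε => ?_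
    rw [zero_add]
    have h1 := (tendsto_norm_mul_im f).eventually (gt_mem_nhds hε)
    rw [atImInfty, eventually_comap, eventually_atTop] at h1
    obtain ⟨Y, hY⟩ := h1
    obtain ⟨n, hn⟩ := pow_unbounded_of_one_lt (Y / z.im) (y := (q : ℝ)) (by exact_mod_cast hq.one_lt)
    obtain ⟨τ, h2, h3⟩ := hit n
    rw [div_lt_iff₀ z.im_pos] at hn
    exact h2.trans_lt (hY _ (hn.le.trans h3) τ rfl)
  apply hf
  have h0 : ∀ τ : ℍ, f τ = 0 := by
    intro τ
    have h1 := (hz τ).trans hCz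
    have h2 : ‖f τ‖ ≤ 0 := by
      by_contra h
      push Not at h
      exact absurd (mul_pos h τ.im_pos) (not_lt.mpr h1)
    exact norm_le_zero_iff.mp h2
  exact DFunLike.ext _ _ h0

/-- **`|a_q(f)| < q + 1`** for a normalised eigenform. -/
theorem norm_qCoeff_lt {q : ℕ} (hq : q.Prime) (hqN : ¬ q ∣ N) {f : CuspForm (Gamma0 N) 2}
    (hf : f.IsNormalizedEigenform) : ‖qCoeff f q‖ < q + 1 :=
  norm_eigenvalue_lt hq hqN hf.ne_zero (AL.eigenform_T hf hq hqN)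

end Fermat.Agent.LM
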