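import Mathlib
import Fermat.Agent.Ell.Cond
import Fermat.Agent.H08.Kummer

/-!
# The `p`-adic representation of an elliptic curve with a nonscalar element
-/

set_option autoImplicit false
set_option linter.style.haveILetI false
set_option linter.unusedSectionVars false

noncomputable section

namespace Fermat.Agent.LM

open Fermat.Agent.H08 Fermat.Agent.H09 Fermat.Agent.Ell Fermat.Agent.EGal
open WeierstrassCurve WeierstrassCurve.Affine WeierstrassCurve.Affine.Point

section Count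

/-- the number of points is at most `2 #F + 1`. -/
theorem card_point_le {F : Type*} [Field F] [Fintype F] (W : WeierstrassCurve.Affine F) :
    Nat.card W.Point ≤ 2 * Fintype.card F + 1 := by
  classical
  have hfin : Finite W.Point := WeierstrassCurve.Affine.Point.instFinite
  have := Fintype.ofFinite W.Point
  rw [Nat.card_eq_fintype_card, ← Finset.card_univ,
    ← Finset.card_erase_add_one (Finset.mem_univ (0 : W.Point))]
  refine Nat.add_le_add_right ?_ 1
  have h1 := Finset.card_le_mul_card_image (f := fun P : W.Point => px P)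
    (Finset.univ.erase (0 : W.Point)) 2 (by
      intro a ha
      obtain ⟨P, hP, rfl⟩ := Finset.mem_image.mp ha
      have hP0 : P ≠ 0 := Finset.ne_of_mem_erase hP
      refine (Finset.card_le_card (t := {P, -P}) ?_).trans Finset.card_le_two
      intro Q hQ
      rw [Finset.mem_filter] at hQ
      have hQ0 : Q ≠ 0 := Finset.ne_of_mem_erase hQ.1
      rw [Finset.mem_insert, Finset.mem_singleton]
      exact (px_eq_iff hQ0 hP0).mp hQ.2)
  refine h1.trans (Nat.mul_le_mul_left 2 ?_)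
  exact Finset.card_le_univ _

/-- the trivial bound for the trace of Frobenius. -/
theorem abs_apOfModel_le (W : WeierstrassCurve ℤ) {q : ℕ} (hq : q.Prime) :
    |W.apOfModel q| ≤ q := by
  haveI : Fact q.Prime := ⟨hq⟩
  have h1 := card_point_le (W.reductionMod q).toAffine
  rw [ZMod.card] at h1
  have h2 : 1 ≤ Nat.card (W.reductionMod q).toAffine.Point := by
    have : Finite (W.reductionMod q).toAffine.Point := WeierstrassCurve.Affine.Point.instFinite
    exact Nat.card_pos
  have h3 : W.apOfModel q = (q : ℤ) + 1 - (Nat.card (W.reductionMod q).toAffine.Point : ℤ) := by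
    unfold WeierstrassCurve.apOfModel WeierstrassCurve.traceOfFrobenius WeierstrassCurve.card
    rw [Nat.card_eq_fintype_card (α := ZMod q), ZMod.card]
  rw [h3, abs_le]
  constructor <;> omega

end Count

section Rep

variable {W : WeierstrassCurve ℤ} (hΔ : W.Δ ≠ 0) {p : ℕ} [hp : Fact p.Prime]
  (hns : ∃ g : GQ, ∀ c : ℤ_[p], rr (WQ W) p g ≠ c • 1)

include hns

theorem zRep_trace_of_ns {l : ℕ} (hl : l.Prime)
    (hgood : W.IsGoodPrimeFor l) (hlp : l ≠ p) {A : ValuationSubring Qb} (hA : A.LiesOverPrime l)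
    {φ : GQ} (hφ : A.IsFrobeniusAt φ l) :
    LinearMap.trace ℤ_[p] (zRep W hΔ p).V ((zRep W hΔ p).ρ φ) = (W.apOfModel l : ℤ_[p]) := by
  have := isElliptic_WQ hΔ
  exact trace_frob (isModel_WQ W) hns hl hgood hlp hA hφ

theorem zRep_det_of_ns {l : ℕ} (hl : l.Prime) (hlp : l ≠ p)
    {A : ValuationSubring Qb} (hA : A.LiesOverPrime l) {φ : GQ} (hφ : A.IsFrobeniusAt φ l) :
    LinearMap.det ((zRep W hΔ p).ρ φ) = (l : ℤ_[p]) := by
  have := isElliptic_WQ hΔ
  exact det_frob (isModel_WQ W) hns hl hlp hA hφ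

theorem zRep_charpoly_of_ns {l : ℕ} (hl : l.Prime)
    (hgood : W.IsGoodPrimeFor l) (hlp : l ≠ p) {A : ValuationSubring Qb} (hA : A.LiesOverPrime l)
    {φ : GQ} (hφ : A.IsFrobeniusAt φ l) :
    LinearMap.charpoly ((zRep W hΔ p).ρ φ) =
      Polynomial.X ^ 2 - Polynomial.C (W.apOfModel l : ℤ_[p]) * Polynomial.X +
        Polynomial.C (l : ℤ_[p]) := by
  rw [H25.charpoly_eq_of_finrank_two (zRep W hΔ p).finrank_eq,
    zRep_trace_of_ns hΔ hns hl hgood hlp hA hφ, zRep_det_of_ns hΔ hns hl hlp hA hφ]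

theorem zRep_isUnipotent_of_ns {q : ℕ} (hq : q.Prime)
    (hqp : q ≠ p) (hss : (q : ℤ) ∣ W.Δ → ¬ (q : ℤ) ∣ W.c₄) :
    (zRep W hΔ p).IsUnipotentOnInertiaAt q := by
  intro A hA σ hσ
  have hdet := det_inertia hns hΔ hq hqp hA hσ
  have hun := rr_unipotent hns hΔ hq hqp hss hA hσ
  have hell := isElliptic_WQ hΔ
  have htr : LinearMap.trace ℤ_[p] (TT (WQ W) p) (rr (WQ W) p σ) = 2 := by
    by_cases hsc : ∀ c : ℤ_[p], rr (WQ W) p σ ≠ c • 1
    · refine (end_of_rel (tateBasis (WQ W) p) hsc (s := 2) (d := 1) ?_).1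
      rw [← hun]
      simp only [mul_sub, sub_mul, one_mul, mul_one, one_smul, two_smul]
      abel
    · push Not at hsc
      obtain ⟨c, hc⟩ := hsc
      rw [hc] at hun
      have h1 := congrArg (fun f => mtx (tateBasis (WQ W) p) f 0 0) hun
      simp only [map_mul, map_sub, map_smul, map_one, _root_.map_zero, Matrix.mul_apply,
        Fin.sum_univ_two, Matrix.sub_apply, Matrix.smul_apply, Matrix.one_apply_eq, smul_eq_mul,
        mul_one, Matrix.zero_apply, Matrix.one_apply_ne (show (0 : Fin 2) ≠ 1 by decide),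
        mul_zero, sub_zero, zero_mul, add_zero] at h1
      have h2 : c = 1 := by
        have := mul_self_eq_zero.mp h1
        exact sub_eq_zero.mp this
      rw [hc, trace_smul_one (tateBasis (WQ W) p), h2, mul_one]
  have hcp := Fermat.Agent.H25.charpoly_eq_of_finrank_two (zRep W hΔ p).finrank_eq
    ((zRep W hΔ p).ρ σ)
  rw [hcp]
  have e1 : LinearMap.trace ℤ_[p] (zRep W hΔ p).V ((zRep W hΔ p).ρ σ) = 2 := htr
  have e2 : LinearMap.det ((zRep W hΔ p).ρ σ) = 1 := hdet
  rw [e1, e2, map_ofNat, map_one]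
  ring

/-- **Frobenius at a multiplicative prime `q ≠ p`** -/
theorem zRep_mult_of_ns {q : ℕ} (hq : q.Prime) (hqp : q ≠ p)
    (hqΔ : (q : ℤ) ∣ W.Δ) (hss : ¬ (q : ℤ) ∣ W.c₄) {A : ValuationSubring Qb}
    (hA : A.LiesOverPrime q) {φ : GQ} (hφ : A.IsFrobeniusAt φ q) :
    LinearMap.trace ℤ_[p] (zRep W hΔ p).V ((zRep W hΔ p).ρ φ) = (q : ℤ_[p]) + 1 ∨
      LinearMap.trace ℤ_[p] (zRep W hΔ p).V ((zRep W hΔ p).ρ φ) = -((q : ℤ_[p]) + 1) := by
  obtain ⟨b, s, h1, h2, h3, h4, h5⟩ := exists_mult_structure p hΔ hq hqΔ hss hns hA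
  have hφA := frob_smul_eq hφ
  obtain ⟨-, h6⟩ := det_of_triangular b (h4 φ hφA) (h5 φ hφA (b 1))
  have h7 : LinearMap.det (rr (WQ W) p φ) = (q : ℤ_[p]) := zRep_det_of_ns hΔ hns hq hqp hA hφ
  rw [h7] at h6
  have h8 : LinearMap.trace ℤ_[p] (zRep W hΔ p).V ((zRep W hΔ p).ρ φ) =
    (q : ℤ_[p]) * (s φ : ℤ_[p]) + (s φ : ℤ_[p]) := h6
  rw [h8]
  rcases h1 φ with h | h <;> rw [h]
  · left; push_cast; ring
  · right; push_cast; ring

end Rep

end Fermat.Agent.LM
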