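import Mathlib
import Fermat.Agent.H09.OT2Curve
import Fermat.Agent.Ell.Cond
import Fermat.Prelude.Def_GaloisRep_ComplexConjugation

/-!
# Complex conjugation does not act as a scalar on the `2`-adic Tate module of an elliptic curve
-/

set_option autoImplicit false
set_option linter.style.haveILetI false
set_option linter.unusedSectionVars false

noncomputable section

namespace Fermat.Agent.LM

open Fermat.Agent.H08 Fermat.Agent.Ell Fermat.Agent.EGal
open WeierstrassCurve WeierstrassCurve.Affine WeierstrassCurve.Affine.Point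

/-- Halving a point of order two. -/
theorem half_two_torsion {F : Type*} [Field F] [DecidableEq F] {W : WeierstrassCurve.Affine F}
    (h2 : (2 : F) ≠ 0) {P T T' T'' : W.Point} (hT : T ≠ 0) (hT' : T' ≠ 0) (hT'' : T'' ≠ 0)
    (h : T + T = 0) (h' : T' + T' = 0) (h'' : T'' + T'' = 0) (e1 : px T ≠ px T')
    (e2 : px T ≠ px T'') (e3 : px T' ≠ px T'') (hP : P + P = T) :
    (px P - px T) ^ 2 = (px T - px T') * (px T - px T'') := by
  have hP0 : P ≠ 0 := by rintro rfl; rw [add_zero] at hP; exact hT hP.symm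
  have hx := H09.twoTors_eq hT h
  have hy := H09.twoTors_eq hT' h'
  have hz := H09.twoTors_eq hT'' h''
  have hd := px_double hP0 (by rw [hP]; exact hT)
  rw [hP] at hd
  set x := px T
  set y := px T'
  set z := px T''
  have k1 : 4 * (x ^ 2 + x * y + y ^ 2) + W.b₂ * (x + y) + 2 * W.b₄ = 0 := by
    apply mul_left_cancel₀ (sub_ne_zero.mpr e1)
    linear_combination hx - hy
  have k2 : 4 * (x ^ 2 + x * z + z ^ 2) + W.b₂ * (x + z) + 2 * W.b₄ = 0 := by
    apply mul_left_cancel₀ (sub_ne_zero.mpr e2)
    linear_combination hx - hz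
  have hb2 : W.b₂ = -4 * (x + y + z) := by
    apply mul_left_cancel₀ (sub_ne_zero.mpr e3)
    linear_combination k1 - k2
  have hb4 : W.b₄ = 2 * (x * y + x * z + y * z) := by
    apply mul_left_cancel₀ h2
    rw [hb2] at k1
    linear_combination k1
  have hb6 : W.b₆ = -4 * (x * y * z) := by
    rw [hb2, hb4] at hx
    linear_combination hx
  have h4 : (4 : F) ≠ 0 := by
    have : (4 : F) = 2 * 2 := by norm_num
    rw [this]; exact mul_ne_zero h2 h2
  have hb8 := W.b_relation
  rw [hb2, hb4, hb6] at hb8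
  rw [hb2, hb4, hb6] at hd
  have hsq : ((px P - x) ^ 2 - (x - y) * (x - z)) ^ 2 = 0 := by
    apply mul_left_cancel₀ h4
    linear_combination (-4) * hd + hb8
  have := pow_eq_zero_iff (two_ne_zero) |>.mp hsq
  exact sub_eq_zero.mp this

variable (E : WeierstrassCurve ℚ) [E.IsElliptic]

/-- the three points of order two. -/
theorem exists_three : ∃ T T' T'' : Pts E, T ≠ 0 ∧ T' ≠ 0 ∧ T'' ≠ 0 ∧ T + T = 0 ∧ T' + T' = 0 ∧
    T'' + T'' = 0 ∧ px T ≠ px T' ∧ px T ≠ px T'' ∧ px T' ≠ px T'' := by
  classical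
  haveI : Fact (Nat.Prime 2) := ⟨Nat.prime_two⟩
  have hc := pts_card E 2
  set M := TateMod.tors1 (Pts E) 2 with hM
  have hfin : Finite M := Nat.finite_of_card_ne_zero (by rw [hc]; norm_num)
  have : Fintype M := Fintype.ofFinite M
  rw [Nat.card_eq_fintype_card] at hc
  have hmem : ∀ x : M, (x : Pts E) + x = 0 := by
    intro x
    have := x.2
    rw [← two_nsmul]
    exact this
  have hneg : ∀ x : M, -(x : Pts E) = x := fun x => by rw [neg_eq_iff_add_eq_zero]; exact hmem x
  obtain ⟨x, hx⟩ : ∃ x : M, x ≠ 0 := by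
    by_contra hcon
    push Not at hcon
    have : Fintype.card M ≤ 1 := Fintype.card_le_one_iff.mpr fun a b => by rw [hcon a, hcon b]
    omega
  obtain ⟨y, hy⟩ : ∃ y : M, y ∉ ({0, x} : Finset M) := by
    by_contra hcon
    push Not at hcon
    have h1 : (Finset.univ : Finset M) ⊆ {0, x} := fun z _ => hcon z
    have h2 := Finset.card_le_card h1
    rw [Finset.card_univ, hc] at h2
    have h3 : ({0, x} : Finset M).card ≤ 2 := Finset.card_le_two
    omega
  simp only [Finset.mem_insert, Finset.mem_singleton, not_or] at hy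
  obtain ⟨hy0, hyx⟩ := hy
  have hx0 : (x : Pts E) ≠ 0 := fun h => hx (Subtype.ext h)
  have hy0' : (y : Pts E) ≠ 0 := fun h => hy0 (Subtype.ext h)
  have hxy0 : ((x + y : M) : Pts E) ≠ 0 := by
    intro h
    apply hyx
    apply Subtype.ext
    have : (x : Pts E) + y = 0 := h
    rw [← neg_eq_iff_add_eq_zero, hneg] at this
    exact this.symm
  refine ⟨x, y, (x + y : M), hx0, hy0', hxy0, hmem x, hmem y, hmem (x + y), ?_, ?_, ?_⟩
  · intro h
    rcases (px_eq_iff hx0 hy0').mp h with h1 | h1
    · exact hyx (Subtype.ext h1.symm)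
    · rw [hneg] at h1
      exact hyx (Subtype.ext h1.symm)
  · intro h
    have h2 : ((x + y : M) : Pts E) = x := by
      rcases (px_eq_iff hx0 hxy0).mp h with h1 | h1
      · exact h1.symm
      · rw [hneg] at h1
        exact h1.symm
    have h3 : x + y = x := Subtype.ext h2
    exact hy0 (add_eq_left.mp h3)
  · intro h
    have h2 : ((x + y : M) : Pts E) = y := by
      rcases (px_eq_iff hy0' hxy0).mp h with h1 | h1
      · exact h1.symm
      · rw [hneg] at h1
        exact h1.symm
    have h3 : x + y = y := Subtype.ext h2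
    exact hx (add_eq_right.mp h3)

theorem mul_self_of_smul_one {p : ℕ} [Fact p.Prime] {z : ℤ_[p]}
    (h : (z • (1 : Module.End ℤ_[p] (TT E p))) * (z • (1 : Module.End ℤ_[p] (TT E p))) = 1) :
    z * z = 1 := by
  have h1 := congrArg (fun f => mtx (tateBasis E p) f 0 0) h
  simp only [map_mul, map_smul, map_one, Matrix.mul_apply, Fin.sum_univ_two, Matrix.smul_apply,
    Matrix.one_apply_eq, smul_eq_mul, mul_one,
    Matrix.one_apply_ne (show (0 : Fin 2) ≠ 1 by decide), mul_zero, zero_mul, add_zero] at h1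
  exact h1

/-- **Complex conjugation is not a scalar on the `2`-adic Tate module.** -/
theorem complexConjugation_nonscalar [Fact (Nat.Prime 2)] (z : ℤ_[2]) :
    rr E 2 complexConjugation ≠ z • 1 := by
  intro hz
  set c := complexConjugation with hc
  have hcc : rr E 2 c * rr E 2 c = 1 := by
    rw [← map_mul, hc, complexConjugation_mul_self, map_one]
  have hz2 : z = 1 ∨ z = -1 := by
    rw [hz] at hcc
    exact mul_self_eq_one_iff.mp (mul_self_of_smul_one E hcc)
  -- the abscissas of the points of order four are fixed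
  have hfix : ∀ P : Pts E, 4 • P = 0 → c (px P) = px P := by
    intro P hP
    obtain ⟨f, hf⟩ := TateMod.exists_lift (pts_div E 2) (n := 2) (x := P) (by exact hP)
    have h1 : (rr E 2 c f).1 2 = c • P := by rw [TateMod.act_level, hf]
    rw [hz] at h1
    have h2 : c • P = P ∨ c • P = -P := by
      rcases hz2 with h | h
      · left
        rw [← h1, h, one_smul, ← hf]
        rfl
      · right
        rw [← h1, h, neg_smul, one_smul, ← hf]
        rfl
    rw [← H09.px_smul]
    rcases h2 with h | h <;> rw [h]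
    exact px_neg P
  obtain ⟨T, T', T'', h1, h2, h3, h4, h5, h6, e1, e2, e3⟩ := exists_three E
  have htwo : (2 : Qb) ≠ 0 := two_ne_zero
  have hreal : ∀ P : Pts E, 4 • P = 0 →
      ((complexEmbedding (px P)).re : ℂ) = complexEmbedding (px P) := by
    intro P hP
    have := complexEmbedding_complexConjugation (px P)
    rw [← hc, hfix P hP] at this
    exact Complex.conj_eq_iff_re.mp this.symm
  have hkey : ∀ T T' T'' : Pts E, T ≠ 0 → T' ≠ 0 → T'' ≠ 0 → T + T = 0 → T' + T' = 0 →
      T'' + T'' = 0 → px T ≠ px T' → px T ≠ px T'' → px T' ≠ px T'' →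
      0 ≤ ((complexEmbedding (px T)).re - (complexEmbedding (px T')).re) *
        ((complexEmbedding (px T)).re - (complexEmbedding (px T'')).re) := by
    intro T T' T'' h1 h2 h3 h4 h5 h6 e1 e2 e3
    obtain ⟨P, hP⟩ := pts_div E 2 T
    rw [two_nsmul] at hP
    have h7 := half_two_torsion htwo h1 h2 h3 h4 h5 h6 e1 e2 e3 hP
    have h4P : 4 • P = 0 := by
      rw [show 4 = 2 * 2 by norm_num, mul_nsmul, two_nsmul P, hP, two_nsmul, h4]
    have h4T : ∀ {T : Pts E}, T + T = 0 → 4 • T = 0 := by
      intro T hT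
      rw [show 4 = 2 * 2 by norm_num, mul_nsmul, two_nsmul T, hT, nsmul_zero]
    have h8 := congrArg complexEmbedding h7
    rw [map_pow, map_sub, map_mul, map_sub, map_sub, ← hreal P h4P, ← hreal T (h4T h4),
      ← hreal T' (h4T h5), ← hreal T'' (h4T h6)] at h8
    have h9 : ((complexEmbedding (px P)).re - (complexEmbedding (px T)).re) ^ 2 =
        ((complexEmbedding (px T)).re - (complexEmbedding (px T')).re) *
        ((complexEmbedding (px T)).re - (complexEmbedding (px T'')).re) := by
      exact_mod_cast h8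
    rw [← h9]
    exact sq_nonneg _
  have hne : ∀ {P Q : Pts E}, P + P = 0 → Q + Q = 0 → px P ≠ px Q →
      (complexEmbedding (px P)).re ≠ (complexEmbedding (px Q)).re := by
    intro P Q hP hQ hPQ h
    have h4T : ∀ {T : Pts E}, T + T = 0 → 4 • T = 0 := by
      intro T hT
      rw [show 4 = 2 * 2 by norm_num, mul_nsmul, two_nsmul T, hT, nsmul_zero]
    apply hPQ
    apply complexEmbedding.injective
    change complexEmbedding (px P) = complexEmbedding (px Q)
    rw [← hreal P (h4T hP), ← hreal Q (h4T hQ), h]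
  have k1 := hkey T T' T'' h1 h2 h3 h4 h5 h6 e1 e2 e3
  have k2 := hkey T' T T'' h2 h1 h3 h5 h4 h6 e1.symm e3 e2
  have k3 := hkey T'' T T' h3 h1 h2 h6 h4 h5 e2.symm e3.symm e1
  have n1 := hne h4 h5 e1
  have n2 := hne h4 h6 e2
  have n3 := hne h5 h6 e3
  set a := (complexEmbedding (px T)).re
  set b := (complexEmbedding (px T')).re
  set d := (complexEmbedding (px T'')).re
  have hprod := mul_nonneg (mul_nonneg k1 k2) k3
  have e : (a - b) * (a - d) * ((b - a) * (b - d)) * ((d - a) * (d - b)) =
      - ((a - b) * (a - d) * (b - d)) ^ 2 := by ring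
  rw [e] at hprod
  have hpos : 0 < ((a - b) * (a - d) * (b - d)) ^ 2 := by
    have : (a - b) * (a - d) * (b - d) ≠ 0 :=
      mul_ne_zero (mul_ne_zero (sub_ne_zero.mpr n1) (sub_ne_zero.mpr n2)) (sub_ne_zero.mpr n3)
    positivity
  linarith

/-- nonscalar elements at `2`. -/
theorem exists_nonscalar_two [Fact (Nat.Prime 2)] :
    ∃ g : GQ, ∀ c : ℤ_[2], rr E 2 g ≠ c • 1 :=
  ⟨complexConjugation, complexConjugation_nonscalar E⟩

end Fermat.Agent.LM
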