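import Mathlib
import Fermat.Agent.AL.Newform
import Fermat.Agent.H05.NewRel
import Fermat.Agent.H23.EigenChar

/-!
# A newform almost all of whose eigenvalues are integers has integral eigenvalues
-/

set_option autoImplicit false
set_option linter.style.haveILetI false

noncomputable section

open CongruenceSubgroup ModularFormClass

namespace Fermat.Agent.LM

/-- An algebraic integer which is the only root of its minimal polynomial is an integer. -/
theorem exists_int_of_unique {a : ℂ} (ha : IsIntegral ℤ a)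
    (h : ∀ b : ℂ, Polynomial.aeval b (minpoly ℚ a) = 0 → b = a) : ∃ z : ℤ, a = z := by
  have haQ : IsIntegral ℚ a := ha.tower_top
  have hdeg : (minpoly ℚ a).natDegree = 1 := by
    have h1 : Fintype.card ((minpoly ℚ a).rootSet ℂ) = (minpoly ℚ a).natDegree :=
      Polynomial.card_rootSet_eq_natDegree (minpoly.irreducible haQ).separable
        (IsAlgClosed.splits _)
    rw [← h1, Fintype.card_eq_one_iff]
    refine ⟨⟨a, ?_⟩, ?_⟩
    · rw [Polynomial.mem_rootSet]
      exact ⟨minpoly.ne_zero haQ, minpoly.aeval ℚ a⟩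
    · rintro ⟨b, hb⟩
      rw [Polynomial.mem_rootSet] at hb
      exact Subtype.ext (h b hb.2)
  obtain ⟨r, hr⟩ := minpoly.natDegree_eq_one_iff.mp hdeg
  have hr' : IsIntegral ℤ r := by
    rw [← hr] at ha
    exact (isIntegral_algebraMap_iff (algebraMap ℚ ℂ).injective).mp ha
  obtain ⟨z, hz⟩ := IsIntegrallyClosed.isIntegral_iff.mp hr'
  refine ⟨z, ?_⟩
  rw [← hr, ← hz]
  simp

/-- **Rationality**: if almost all eigenvalues of a newform are integers then all the eigenvalues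
of the operators `T_q` are integers. -/
theorem exists_int_qCoeff {M : ℕ} [NeZero M] {g : CuspForm (Gamma0 M) 2} (hg : g.IsNewform)
    {D : ℕ} (hD : D ≠ 0)
    (h : ∀ ℓ : ℕ, ℓ.Prime → ¬ ℓ ∣ M → ¬ ℓ ∣ D → ∃ z : ℤ, qCoeff g ℓ = z) {q : ℕ} (hq : q.Prime)
    (hqM : ¬ q ∣ M) : ∃ z : ℤ, qCoeff g q = z := by
  have hT : ∀ (ℓ : ℕ) (hℓ : ℓ.Prime) (hℓM : ¬ ℓ ∣ M),
      ((H23.eigenChar hg.1 ∅ (CuspForm.heckeAlgebra.T hℓ hℓM (Set.notMem_empty ℓ)) :
        integralClosure ℤ ℂ) : ℂ) = qCoeff g ℓ := fun ℓ hℓ hℓM => H23.coe_eigenChar_T hg.1 hℓ hℓM _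
  have hint : IsIntegral ℤ (qCoeff g q) := by
    rw [← hT q hq hqM]
    exact (H23.eigenChar hg.1 ∅ (CuspForm.heckeAlgebra.T hq hqM (Set.notMem_empty q))).2
  refine exists_int_of_unique hint fun b hb => ?_
  -- the algebraic closure of `ℚ` in `ℂ`
  let K : IntermediateField ℚ ℂ := algebraicClosure ℚ ℂ
  have hK : ∀ x : integralClosure ℤ ℂ, (x : ℂ) ∈ K := fun x => by
    have : IsIntegral ℚ (x : ℂ) := x.2.tower_top
    exact mem_algebraicClosure_iff.mpr this.isAlgebraic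
  let ι : integralClosure ℤ ℂ →+* K :=
    { toFun := fun x => ⟨x, hK x⟩
      map_one' := rfl
      map_mul' := fun _ _ => rfl
      map_zero' := rfl
      map_add' := fun _ _ => rfl }
  let aK : K := ⟨qCoeff g q, by rw [← hT q hq hqM]; exact hK _⟩
  have hmin : minpoly ℚ aK = minpoly ℚ (qCoeff g q) :=
    (minpoly.algebraMap_eq (algebraMap K ℂ).injective aK).symm
  have : Algebra.IsAlgebraic ℚ K := algebraicClosure.isAlgebraic ℚ ℂ
  obtain ⟨φ, hφ⟩ := IntermediateField.exists_algHom_of_splits_of_aeval (F := ℚ) (E := K) (K := ℂ)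
    (fun s => ⟨Algebra.IsIntegral.isIntegral s, IsAlgClosed.splits _⟩) (x := aK) (y := b)
    (by rw [hmin]; exact hb)
  let χ : CuspForm.heckeAlgebra M 2 ∅ →+* ℂ :=
    (φ : K →+* ℂ).comp (ι.comp (H23.eigenChar hg.1 ∅))
  obtain ⟨f, hf0, hf⟩ := H05.exists_form_of_char (N := M) ∅ χ
  have hχ : ∀ (ℓ : ℕ) (hℓ : ℓ.Prime) (hℓM : ¬ ℓ ∣ M), ¬ ℓ ∣ D →
      χ (CuspForm.heckeAlgebra.T hℓ hℓM (Set.notMem_empty ℓ)) = qCoeff g ℓ := by
    intro ℓ hℓ hℓM hℓD
    obtain ⟨z, hz⟩ := h ℓ hℓ hℓM hℓD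
    have h1 : ι (H23.eigenChar hg.1 ∅ (CuspForm.heckeAlgebra.T hℓ hℓM (Set.notMem_empty ℓ))) =
        (z : K) := by
      apply Subtype.ext
      change ((H23.eigenChar hg.1 ∅ (CuspForm.heckeAlgebra.T hℓ hℓM (Set.notMem_empty ℓ)) :
        integralClosure ℤ ℂ) : ℂ) = _
      rw [hT ℓ hℓ hℓM, hz]
      simp
    change φ (ι _) = _
    rw [h1, map_intCast, hz]
  have hχq : χ (CuspForm.heckeAlgebra.T hq hqM (Set.notMem_empty q)) = b := by
    have h1 : ι (H23.eigenChar hg.1 ∅ (CuspForm.heckeAlgebra.T hq hqM (Set.notMem_empty q))) = aK :=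
      Subtype.ext (hT q hq hqM)
    change φ (ι _) = _
    rw [h1, hφ]
  have h2 := AL.strong_multiplicity_one hg hD f (fun ℓ hℓ hℓM hℓD => by
    have := hf (CuspForm.heckeAlgebra.T hℓ hℓM (Set.notMem_empty ℓ))
    rw [hχ ℓ hℓ hℓM hℓD] at this
    exact this)
  have h3 : CuspForm.heckeTLin 2 hq hqM f = b • f := by
    have := hf (CuspForm.heckeAlgebra.T hq hqM (Set.notMem_empty q))
    rw [hχq] at this
    exact this
  have h4 : CuspForm.heckeTLin 2 hq hqM f = qCoeff g q • f := by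
    rw [h2, map_smul, AL.eigenform_T hg.1 hq hqM, smul_comm]
  have h5 : (b - qCoeff g q) • f = 0 := by
    rw [sub_smul, ← h3, h4, sub_self]
  exact sub_eq_zero.mp ((smul_eq_zero.mp h5).resolve_right hf0)

end Fermat.Agent.LM
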