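import Mathlib
import Fermat.Agent.H05.Local
import Fermat.Agent.H25.LatticeRep
import Fermat.Agent.H25.Density

/-!
# Representations with the same Frobenius characteristic polynomials have the same traces
-/

set_option autoImplicit false

noncomputable section

namespace Fermat.Agent.LM

open Fermat.Agent.H05 IsLocalRing Polynomial

local notation "Γℚ" => AlgebraicClosure ℚ ≃ₐ[ℚ] AlgebraicClosure ℚ

variable {T : Type} [CommRing T] [IsLocalRing T]

/-- the trace is approximated on powers of Frobenius elements. -/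
theorem trace_sub_mem (ρ : GaloisRepAdic T) {n : ℕ} {L : IntermediateField ℚ (AlgebraicClosure ℚ)}
    (hL : ∀ u : Γℚ, (∀ x ∈ L, u x = x) → ∀ v : ρ.V,
      ρ.ρ u v - v ∈ maximalIdeal T ^ n • (⊤ : Submodule T ρ.V)) {g h : Γℚ}
    (hgh : ∀ x ∈ L, g x = h x) :
    LinearMap.trace T ρ.V (ρ.ρ g) - LinearMap.trace T ρ.V (ρ.ρ h) ∈ maximalIdeal T ^ n := by
  let u : Γℚ := h⁻¹ * g
  have hu : ∀ x ∈ L, u x = x := by
    intro x hx
    change h⁻¹ (g x) = x
    rw [hgh x hx]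
    change (h⁻¹ * h) x = x
    rw [inv_mul_cancel]
    rfl
  have hg : g = h * u := by
    change g = h * (h⁻¹ * g)
    rw [mul_inv_cancel_left]
  rw [← map_sub]
  apply trace_mem_of_forall_mem
  intro v
  have h4 : (ρ.ρ g - ρ.ρ h) v = ρ.ρ h (ρ.ρ u v - v) := by
    have : ρ.ρ g = ρ.ρ h * ρ.ρ u := by rw [← map_mul, ← hg]
    rw [LinearMap.sub_apply, this, map_sub, Module.End.mul_apply]
  rw [h4]
  exact Submodule.smul_top_le_comap_smul_top _ (ρ.ρ h) (hL u hu v)

/-- **Two adic representations with the same characteristic polynomials of Frobenius elements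
outside a finite set have the same traces.** -/
theorem trace_eq_of_frob [IsHausdorff (maximalIdeal T) T] (ρ ρ' : GaloisRepAdic T) (S : Finset ℕ)
    (h : ∀ ℓ : ℕ, ℓ.Prime → ℓ ∉ S → ∀ A : ValuationSubring (AlgebraicClosure ℚ),
      A.LiesOverPrime ℓ → ∀ φ : Γℚ, A.IsFrobeniusAt φ ℓ →
        LinearMap.charpoly (ρ.ρ φ) = LinearMap.charpoly (ρ'.ρ φ)) (σ : Γℚ) :
    LinearMap.trace T ρ.V (ρ.ρ σ) = LinearMap.trace T ρ'.V (ρ'.ρ σ) := by
  rw [← sub_eq_zero]
  apply IsHausdorff.haus (inferInstance : IsHausdorff (maximalIdeal T) T)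
  intro n
  rw [SModEq.zero, smul_eq_mul, Ideal.mul_top]
  obtain ⟨L₁, hL₁, h1⟩ := ρ.isAdicContinuous n
  obtain ⟨L₂, hL₂, h2⟩ := ρ'.isAdicContinuous n
  have : FiniteDimensional ℚ (L₁ ⊔ L₂ : IntermediateField ℚ (AlgebraicClosure ℚ)) :=
    IntermediateField.finiteDimensional_sup L₁ L₂
  obtain ⟨ℓ, hℓ, hℓS, A, hA, φ, hφ, j, hj⟩ := H25.weakChebotarev (L₁ ⊔ L₂) inferInstance S σ
  have e1 := trace_sub_mem ρ (n := n) (L := L₁) (fun u hu v => h1 u hu v) (g := σ) (h := φ ^ j)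
    (fun x hx => hj x (le_sup_left (a := L₁) hx))
  have e2 := trace_sub_mem ρ' (n := n) (L := L₂) (fun u hu v => h2 u hu v) (g := σ) (h := φ ^ j)
    (fun x hx => hj x (le_sup_right (a := L₁) hx))
  have hcp := H25.charpoly_eq_of_finrank_two ρ.finrank_eq (ρ.ρ φ)
  have t1 := trace_pow_eq_lucas ρ.finrank_eq (ρ.ρ φ) _ _ hcp j
  have t2 := trace_pow_eq_lucas ρ'.finrank_eq (ρ'.ρ φ) _ _
    ((h ℓ hℓ hℓS A hA φ hφ).symm.trans hcp) j
  rw [map_pow, t1] at e1
  rw [map_pow, t2] at e2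
  have := sub_mem e1 e2
  rwa [sub_sub_sub_cancel_right] at this

end Fermat.Agent.LM
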