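import Mathlib
import Fermat.Agent.LM.Bound
import Fermat.Agent.LM.Rat
import Fermat.Agent.LM.Ns
import Fermat.Agent.LM.ERep
import Fermat.Agent.LM.TraceEq
import Fermat.Agent.TC.Old
import Fermat.Agent.H05.Geom
import Fermat.Agent.RR.S36Wire
import Fermat.Agent.H25.S30Reduction
import Fermat.Agent.H51.QbarGalois
import Fermat.Prelude.Def_WeierstrassCurve_Mlc1RowStatement
import Fermat.Prelude.Def_WeierstrassCurve_ConductorLevel

/-!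
# Conductor-level matching for modular semistable elliptic curves
-/

set_option autoImplicit false
set_option linter.style.haveILetI false
set_option linter.unusedSectionVars false
set_option maxSynthPendingDepth 3

noncomputable section

namespace Fermat.Agent.LM

open CongruenceSubgroup ModularFormClass ModularCurve IsLocalRing
open Fermat.Agent.Ell Fermat.Agent.EGal Fermat.Agent.H05

variable {M : ℕ} [NeZero M] {g : CuspForm (Gamma0 M) 2}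

/-- A ring homomorphism to `ℂ` with integer values factors through `ℤ`. -/
theorem exists_intFactor {R : Type*} [Ring R] (f : R →+* ℂ) (h : ∀ x, ∃ z : ℤ, f x = z) :
    ∃ f₀ : R →+* ℤ, ∀ x, (f₀ x : ℂ) = f x := by
  let e : ℤ ≃+* (Int.castRingHom ℂ).range :=
    RingEquiv.ofBijective (Int.castRingHom ℂ).rangeRestrict
      ⟨fun a b hab => Int.cast_injective (α := ℂ) (congrArg Subtype.val hab),
        (Int.castRingHom ℂ).rangeRestrict_surjective⟩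
  let f₁ : R →+* (Int.castRingHom ℂ).range := f.codRestrict _ fun x => by
    obtain ⟨z, hz⟩ := h x
    exact ⟨z, by rw [hz]; rfl⟩
  refine ⟨e.symm.toRingHom.comp f₁, fun x => ?_⟩
  have h1 : e (e.symm (f₁ x)) = f₁ x := e.apply_symm_apply _
  exact congrArg Subtype.val h1

/-- the character of the Hecke algebra attached to a form with integral eigenvalues. -/
theorem exists_intChar (hg : g.IsNormalizedEigenform) (S : Finset ℕ)
    (hMS : ∀ q : ℕ, q.Prime → q ∣ M → q ∈ S)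
    (h : ∀ ℓ : ℕ, ℓ.Prime → ¬ ℓ ∣ M → ℓ ∉ S → ∃ z : ℤ, qCoeff g ℓ = z) :
    ∃ π₀ : CuspForm.heckeAlgebra M 2 (↑S : Set ℕ) →+* ℤ,
      ∀ x, (π₀ x : ℂ) = H23.eigenCharC hg (↑S : Set ℕ) x := by
  apply exists_intFactor
  intro x
  obtain ⟨t, rfl⟩ := RR.awayEval_surjective M (↑S : Set ℕ) x
  induction t using MvPolynomial.induction_on with
  | C a =>
    refine ⟨a, ?_⟩
    have h1 : (MvPolynomial.C a : RR.AwayAlg (↑S : Set ℕ)) = (a : RR.AwayAlg (↑S : Set ℕ)) := by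
      simp
    rw [h1, map_intCast, map_intCast]
  | add p q hp hq =>
    obtain ⟨a, ha⟩ := hp
    obtain ⟨b, hb⟩ := hq
    exact ⟨a + b, by rw [map_add, map_add, ha, hb, Int.cast_add]⟩
  | mul_X p i hp =>
    obtain ⟨a, ha⟩ := hp
    have hi : ¬ (i.1 : ℕ) ∣ M := fun hd => i.2 (hMS _ i.1.2 hd)
    obtain ⟨z, hz⟩ := h i.1 i.1.2 hi i.2
    refine ⟨a * z, ?_⟩
    rw [map_mul, map_mul, ha, RR.awayEval_X, RR.awayGen_of_not_dvd _ _ hi, Int.cast_mul, ← hz]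
    congr 1
    exact H23.eigenCharC_T hg i.1.2 hi i.2

variable {W : WeierstrassCurve ℤ}

section

variable {p : ℕ} [hp : Fact p.Prime]

lemma natCast_mem_maximalIdeal : ((p : ℕ) : ℤ_[p]) ∈ maximalIdeal ℤ_[p] := by
  rw [PadicInt.maximalIdeal_eq_span_p]
  exact Ideal.mem_span_singleton_self _

/-- **The Galois representation over `ℤ_p` attached to a form with integral eigenvalues.** -/
theorem exists_attached (hg : g.IsNormalizedEigenform)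
    (h : ∀ ℓ : ℕ, ℓ.Prime → ¬ ℓ ∣ M → ∃ z : ℤ, qCoeff g ℓ = z) :
    ∃ ρ : GaloisRepAdic ℤ_[p], ∀ ℓ : ℕ, ℓ.Prime → ¬ ℓ ∣ M → ℓ ≠ p →
      ∀ A : ValuationSubring (AlgebraicClosure ℚ), A.LiesOverPrime ℓ →
      ∀ φ : GQ, A.IsFrobeniusAt φ ℓ → ∀ z : ℤ, qCoeff g ℓ = z →
      LinearMap.charpoly (ρ.ρ φ) = Polynomial.X ^ 2 - Polynomial.C (z : ℤ_[p]) * Polynomial.X +
        Polynomial.C (ℓ : ℤ_[p]) := by
  classical
  let S : Finset ℕ := insert p M.primeFactors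
  have hpS : p ∈ S := Finset.mem_insert_self _ _
  have hMS : ∀ q : ℕ, q.Prime → q ∣ M → q ∈ S := fun q hq hqM =>
    Finset.mem_insert_of_mem (Nat.mem_primeFactors.mpr ⟨hq, hqM, NeZero.ne M⟩)
  obtain ⟨π₀, hπ₀⟩ := exists_intChar hg S hMS (fun ℓ hℓ hℓM _ => h ℓ hℓ hℓM)
  obtain ⟨ρ, hρ, -, -⟩ := H25.exists_galoisRepAdic hpS
    (H25.heckeInput_of_heckeGaloisInput hpS hMS (H05.heckeGaloisInput hp.out M (↑S : Set ℕ)))
    (R := ℤ_[p]) natCast_mem_maximalIdeal ((Int.castRingHom ℤ_[p]).comp π₀)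
  refine ⟨ρ, fun ℓ hℓ hℓM hℓp A hA φ hφ z hz => ?_⟩
  have hℓS : ℓ ∉ S := by
    intro hmem
    rcases Finset.mem_insert.mp hmem with h1 | h1
    · exact hℓp h1
    · exact hℓM (Nat.dvd_of_mem_primeFactors h1)
  have hℓS' : ℓ ∉ (↑S : Set ℕ) := fun hmem => hℓS (by exact_mod_cast hmem)
  rw [hρ ℓ hℓ hℓS A hA φ hφ, H25.heckeT_eq hℓ hℓM hℓS']
  have h1 : π₀ (CuspForm.heckeAlgebra.T hℓ hℓM hℓS') = z := by
    have h2 := hπ₀ (CuspForm.heckeAlgebra.T hℓ hℓM hℓS')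
    rw [H23.eigenCharC_T hg hℓ hℓM hℓS', hz] at h2
    exact_mod_cast h2
  rw [RingHom.comp_apply, h1]
  rfl

variable (hΔ : W.Δ ≠ 0) (hns : ∃ g : GQ, ∀ c : ℤ_[p], rr (WQ W) p g ≠ c • 1)

include hns

/-- **Comparison of the traces of Frobenius** at primes not dividing the level. -/
theorem trace_zRep_eq (hg : g.IsNewform) {D : ℕ} (hD : D ≠ 0)
    (h : ∀ ℓ : ℕ, ℓ.Prime → ¬ ℓ ∣ M → ¬ ℓ ∣ D →
      W.IsGoodPrimeFor ℓ ∧ qCoeff g ℓ = (W.apOfModel ℓ : ℂ)) {q : ℕ} (hq : q.Prime)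
    (hqM : ¬ q ∣ M) (hqp : q ≠ p) {A : ValuationSubring (AlgebraicClosure ℚ)}
    (hA : A.LiesOverPrime q) {φ : GQ} (hφ : A.IsFrobeniusAt φ q) {z : ℤ} (hz : qCoeff g q = z) :
    LinearMap.trace ℤ_[p] (zRep W hΔ p).V ((zRep W hΔ p).ρ φ) = z := by
  classical
  have hint : ∀ ℓ : ℕ, ℓ.Prime → ¬ ℓ ∣ M → ∃ z : ℤ, qCoeff g ℓ = z := fun ℓ hℓ hℓM =>
    exists_int_qCoeff hg hD (fun ℓ hℓ hℓM hℓD => ⟨_, (h ℓ hℓ hℓM hℓD).2⟩) hℓ hℓM
  obtain ⟨ρ, hρ⟩ := exists_attached (p := p) hg.1 hint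
  have key := trace_eq_of_frob ρ (zRep W hΔ p) (insert p (M.primeFactors ∪ D.primeFactors)) (by
    intro ℓ hℓ hℓS A hA φ hφ
    have hℓp : ℓ ≠ p := fun h => hℓS (h ▸ Finset.mem_insert_self _ _)
    have hℓM : ¬ ℓ ∣ M := fun h => hℓS (Finset.mem_insert_of_mem (Finset.mem_union_left _
      (Nat.mem_primeFactors.mpr ⟨hℓ, h, NeZero.ne M⟩)))
    have hℓD : ¬ ℓ ∣ D := fun h => hℓS (Finset.mem_insert_of_mem (Finset.mem_union_right _
      (Nat.mem_primeFactors.mpr ⟨hℓ, h, hD⟩)))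
    obtain ⟨h1, h2⟩ := h ℓ hℓ hℓM hℓD
    rw [hρ ℓ hℓ hℓM hℓp A hA φ hφ _ h2, zRep_charpoly_of_ns hΔ hns hℓ h1 hℓp hA hφ]) φ
  rw [← key]
  exact trace_eq_of_charpoly ρ.finrank_eq _ _ _ (hρ q hq hqM hqp A hA φ hφ z hz)

end

/-- **Frobenius at a prime exactly dividing the level** for any representation attached to a
newform. -/
theorem charpoly_frobenius_new (hg : g.IsNewform) {p : ℕ} (hp : p.Prime) {S : Finset ℕ}
    (hpS : p ∈ S) (hMS : ∀ q : ℕ, q.Prime → q ∣ M → q ∈ S)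
    {T : Type} [CommRing T] [IsDomain T] [IsDiscreteValuationRing T] [CharZero T]
    [IsHausdorff (maximalIdeal T) T] (hpT : (p : T) ∈ maximalIdeal T)
    (chig : CuspForm.heckeAlgebra M 2 (↑S : Set ℕ) →+* ℂ)
    (hchig : ∀ (ℓ : ℕ) (hℓ : ℓ.Prime) (hℓM : ¬ ℓ ∣ M) (hℓS : ℓ ∉ (↑S : Set ℕ)),
      chig (CuspForm.heckeAlgebra.T hℓ hℓM hℓS) = qCoeff g ℓ)
    (π : CuspForm.heckeAlgebra M 2 (↑S : Set ℕ) →+* T) (hπ₀ : ∀ x, chig x ≠ 0 → π x ≠ 0)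
    (ρ : GaloisRepAdic T)
    (hρ : ∀ (ℓ : ℕ) (hℓ : ℓ.Prime) (hℓM : ¬ ℓ ∣ M) (hℓS : ℓ ∉ (↑S : Set ℕ)),
      ∀ A : ValuationSubring (AlgebraicClosure ℚ), A.LiesOverPrime ℓ →
        ∀ σ : GQ, A.IsFrobeniusAt σ ℓ → LinearMap.charpoly (ρ.ρ σ) =
          Polynomial.X ^ 2 - Polynomial.C (π (CuspForm.heckeAlgebra.T hℓ hℓM hℓS)) * Polynomial.X
            + Polynomial.C ((ℓ : T)))
    {q : ℕ} (hq : q.Prime) (hqp : q ≠ p) (hqM : q ∣ M) (hq2 : ¬ q ^ 2 ∣ M)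
    {A : ValuationSubring (AlgebraicClosure ℚ)} (hA : A.LiesOverPrime q) {σ : GQ}
    (hσ : A.IsFrobeniusAt σ q) :
    LinearMap.charpoly (ρ.ρ σ) =
      Polynomial.X ^ 2 - Polynomial.C ((q : T) + 1) * Polynomial.X + Polynomial.C ((q : T)) ∨
    LinearMap.charpoly (ρ.ρ σ) =
      Polynomial.X ^ 2 + Polynomial.C ((q : T) + 1) * Polynomial.X + Polynomial.C ((q : T)) := by
  refine charpoly_frobenius_of_input H25.weakChebotarev (p := p) (N := M) hp hpS hMS hpT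
    ρ π hρ q hq hqp ?_ A hA σ hσ
  haveI : Fact q.Prime := ⟨hq⟩
  obtain ⟨M', hM'0, hcop, hM⟩ := exists_factor hq hqM hq2
  haveI : NeZero M' := ⟨hM'0⟩
  have hne : M' ≠ M := by
    rw [hM]
    intro h
    have : M' * 1 = M' * q := by rw [mul_one]; exact h
    exact hq.one_lt.ne (Nat.eq_of_mul_eq_mul_left (Nat.pos_of_ne_zero hM'0) this)
  obtain ⟨t₀, ht₀S, ht₀, ht₀g⟩ := exists_separating hg (M := M') ⟨q, hM⟩ hne
    (S := (↑S : Set ℕ)) S.finite_toSet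
  have hπ : π (awayEval M (↑S : Set ℕ) ⟨t₀, ht₀S⟩) ≠ 0 := by
    apply hπ₀
    rw [chig_awayEval chig hchig hMS]
    exact ht₀g
  have hqS : q ∈ (↑S : Set ℕ) := by exact_mod_cast hMS q hq hqM
  have hNew := newAt_of_hyp hp hqp (fun M _ h hyp => toricHyp p hp q hqp M h hyp) hcop
  have hES := esAt_of_geom esHyp hp M
  clear hρ ρ hchig hg ht₀g hπ₀
  subst hM
  exact newFrobInput_of hp hq hcop _ hqS hpT π ⟨t₀, ht₀S⟩ ht₀ hπ hNew hES

section Local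

variable {p : ℕ} [hp : Fact p.Prime]
variable (hΔ : W.Δ ≠ 0) (hns : ∃ g : GQ, ∀ c : ℤ_[p], rr (WQ W) p g ≠ c • 1)

include hns in
/-- the common set-up for the local comparison. -/
theorem exists_setup (hg : g.IsNewform) {D : ℕ} (hD : D ≠ 0)
    (h : ∀ ℓ : ℕ, ℓ.Prime → ¬ ℓ ∣ M → ¬ ℓ ∣ D →
      W.IsGoodPrimeFor ℓ ∧ qCoeff g ℓ = (W.apOfModel ℓ : ℂ)) :
    ∃ (S : Finset ℕ) (_ : p ∈ S) (_ : ∀ q : ℕ, q.Prime → q ∣ M → q ∈ S)
      (π : CuspForm.heckeAlgebra M 2 (↑S : Set ℕ) →+* ℤ_[p]),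
      (∀ x, H23.eigenCharC hg.1 (↑S : Set ℕ) x = 0 ↔ π x = 0) ∧
      ∀ (ℓ : ℕ) (hℓ : ℓ.Prime) (hℓM : ¬ ℓ ∣ M) (hℓS : ℓ ∉ (↑S : Set ℕ)),
      ∀ A : ValuationSubring (AlgebraicClosure ℚ), A.LiesOverPrime ℓ →
        ∀ σ : GQ, A.IsFrobeniusAt σ ℓ → LinearMap.charpoly ((zRep W hΔ p).ρ σ) =
          Polynomial.X ^ 2 - Polynomial.C (π (CuspForm.heckeAlgebra.T hℓ hℓM hℓS)) * Polynomial.X
            + Polynomial.C ((ℓ : ℤ_[p])) := by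
  classical
  let S : Finset ℕ := insert p (M.primeFactors ∪ D.primeFactors)
  have hMS : ∀ q : ℕ, q.Prime → q ∣ M → q ∈ S := fun q hq hqM =>
    Finset.mem_insert_of_mem (Finset.mem_union_left _
      (Nat.mem_primeFactors.mpr ⟨hq, hqM, NeZero.ne M⟩))
  have hDS : ∀ q : ℕ, q.Prime → q ∣ D → q ∈ S := fun q hq hqD =>
    Finset.mem_insert_of_mem (Finset.mem_union_right _ (Nat.mem_primeFactors.mpr ⟨hq, hqD, hD⟩))
  obtain ⟨π₀, hπ₀⟩ := exists_intChar hg.1 S hMS (fun ℓ hℓ hℓM hℓS =>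
    ⟨_, (h ℓ hℓ hℓM (fun hd => hℓS (hDS ℓ hℓ hd))).2⟩)
  refine ⟨S, Finset.mem_insert_self _ _, hMS, (Int.castRingHom ℤ_[p]).comp π₀, fun x => ?_,
    fun ℓ hℓ hℓM hℓS A hA σ hσ => ?_⟩
  · rw [← hπ₀, Int.cast_eq_zero, RingHom.comp_apply, eq_intCast, Int.cast_eq_zero]
  · have hℓD : ¬ ℓ ∣ D := fun hd => hℓS (by exact_mod_cast hDS ℓ hℓ hd)
    have hℓp : ℓ ≠ p := fun hh => hℓS (by rw [hh]; exact_mod_cast Finset.mem_insert_self _ _)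
    obtain ⟨h1, h2⟩ := h ℓ hℓ hℓM hℓD
    have h3 : π₀ (CuspForm.heckeAlgebra.T hℓ hℓM hℓS) = W.apOfModel ℓ := by
      have h4 := hπ₀ (CuspForm.heckeAlgebra.T hℓ hℓM hℓS)
      rw [H23.eigenCharC_T hg.1 hℓ hℓM hℓS, h2] at h4
      exact_mod_cast h4
    rw [zRep_charpoly_of_ns hΔ hns hℓ h1 hℓp hA hσ, RingHom.comp_apply, h3]
    rfl

include hΔ hns in
/-- **(b)** a prime exactly dividing the level is a bad prime. -/
theorem dvd_disc_of_exact (hg : g.IsNewform) {D : ℕ} (hD : D ≠ 0)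
    (h : ∀ ℓ : ℕ, ℓ.Prime → ¬ ℓ ∣ M → ¬ ℓ ∣ D →
      W.IsGoodPrimeFor ℓ ∧ qCoeff g ℓ = (W.apOfModel ℓ : ℂ)) {q : ℕ} (hq : q.Prime)
    (hqp : q ≠ p) (hqM : q ∣ M) (hq2 : ¬ q ^ 2 ∣ M) : (q : ℤ) ∣ W.Δ := by
  by_contra hgood
  obtain ⟨S, hpS, hMS, π, hπ, hρ⟩ := exists_setup hΔ hns hg hD h
  haveI := H51.isGalois_Qbar
  obtain ⟨A, hA⟩ := exists_liesOverPrime (AlgebraicClosure ℚ) hq
  obtain ⟨φ, hφ⟩ := exists_isFrobeniusAt (L := AlgebraicClosure ℚ) hq hA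
  have htr := zRep_trace_of_ns hΔ hns hq hgood hqp hA hφ
  have hbd := abs_apOfModel_le W hq
  rw [abs_le] at hbd
  rcases charpoly_frobenius_new hg hp.out hpS hMS natCast_mem_maximalIdeal
    (H23.eigenCharC hg.1 _) (fun ℓ hℓ hℓM hℓS => H23.eigenCharC_T hg.1 hℓ hℓM hℓS) π
    (fun x hx h0 => hx ((hπ x).mpr h0)) (zRep W hΔ p) hρ hq hqp hqM hq2 hA hφ with h1 | h1
  · have h2 := trace_eq_of_charpoly (zRep W hΔ p).finrank_eq _ _ _ h1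
    rw [htr] at h2
    have h3 : (W.apOfModel q) = (q : ℤ) + 1 := by exact_mod_cast h2
    omega
  · have h1' : LinearMap.charpoly ((zRep W hΔ p).ρ φ) = Polynomial.X ^ 2 -
        Polynomial.C (-((q : ℤ_[p]) + 1)) * Polynomial.X + Polynomial.C ((q : ℤ_[p])) := by
      rw [h1, Polynomial.C_neg]; ring
    have h2 := trace_eq_of_charpoly (zRep W hΔ p).finrank_eq _ _ _ h1'
    rw [htr] at h2
    have h3 : (W.apOfModel q) = -((q : ℤ) + 1) := by exact_mod_cast h2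
    omega

include hΔ hns in
/-- **(c)** a prime of multiplicative reduction divides the level. -/
theorem dvd_level_of_dvd_disc (hss : W.IsSemistableModel) (hg : g.IsNewform) {D : ℕ} (hD : D ≠ 0)
    (h : ∀ ℓ : ℕ, ℓ.Prime → ¬ ℓ ∣ M → ¬ ℓ ∣ D →
      W.IsGoodPrimeFor ℓ ∧ qCoeff g ℓ = (W.apOfModel ℓ : ℂ)) {q : ℕ} (hq : q.Prime)
    (hqp : q ≠ p) (hqΔ : (q : ℤ) ∣ W.Δ) : q ∣ M := by
  by_contra hqM
  obtain ⟨z, hz⟩ := exists_int_qCoeff hg hD (fun ℓ hℓ hℓM hℓD => ⟨_, (h ℓ hℓ hℓM hℓD).2⟩) hq hqM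
  haveI := H51.isGalois_Qbar
  obtain ⟨A, hA⟩ := exists_liesOverPrime (AlgebraicClosure ℚ) hq
  obtain ⟨φ, hφ⟩ := exists_isFrobeniusAt (L := AlgebraicClosure ℚ) hq hA
  have htr := trace_zRep_eq hΔ hns hg hD h hq hqM hqp hA hφ hz
  have hbd := norm_qCoeff_lt hq hqM hg.1
  rw [hz, Complex.norm_intCast] at hbd
  have hbd' : |z| < (q : ℤ) + 1 := by exact_mod_cast hbd
  rw [abs_lt] at hbd'
  rcases zRep_mult_of_ns hΔ hns hq hqp hqΔ (hss q hq hqΔ) hA hφ with h1 | h1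
  · rw [htr] at h1
    have h3 : z = (q : ℤ) + 1 := by exact_mod_cast h1
    omega
  · rw [htr] at h1
    have h3 : z = -((q : ℤ) + 1) := by exact_mod_cast h1
    omega

include hΔ hns in
/-- **(a)** the level is not exactly divisible by `q²`. -/
theorem factorization_ne_two (HR : RR.TheoremRAux) (hss : W.IsSemistableModel)
    (hg : g.IsNewform) {D : ℕ} (hD : D ≠ 0)
    (h : ∀ ℓ : ℕ, ℓ.Prime → ¬ ℓ ∣ M → ¬ ℓ ∣ D →
      W.IsGoodPrimeFor ℓ ∧ qCoeff g ℓ = (W.apOfModel ℓ : ℂ)) {q : ℕ} (hq : q.Prime)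
    (hqp : q ≠ p) : M.factorization q ≠ 2 := by
  intro hq2
  obtain ⟨S, hpS, hMS, π, hπ, hρ⟩ := exists_setup hΔ hns hg hD h
  exact RR.not_isUnipotent HR hg hp.out hpS hMS natCast_mem_maximalIdeal
    (H23.eigenCharC hg.1 _) (fun ℓ hℓ hℓM hℓS => H23.eigenCharC_T hg.1 hℓ hℓM hℓS) π
    (fun x hx => (hπ x).mp hx) (zRep W hΔ p) hρ (esAt_of_geom esHyp hp.out M) hq hqp hq2
    (zRep_isUnipotent_of_ns hΔ hns hq hqp (hss q hq))

include hΔ hns in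
/-- the coefficients at the good primes. -/
theorem qCoeff_eq_of_good (hg : g.IsNewform) {D : ℕ} (hD : D ≠ 0)
    (h : ∀ ℓ : ℕ, ℓ.Prime → ¬ ℓ ∣ M → ¬ ℓ ∣ D →
      W.IsGoodPrimeFor ℓ ∧ qCoeff g ℓ = (W.apOfModel ℓ : ℂ)) {q : ℕ} (hq : q.Prime)
    (hqp : q ≠ p) (hqM : ¬ q ∣ M) (hgood : W.IsGoodPrimeFor q) :
    qCoeff g q = (W.apOfModel q : ℂ) := by
  obtain ⟨z, hz⟩ := exists_int_qCoeff hg hD (fun ℓ hℓ hℓM hℓD => ⟨_, (h ℓ hℓ hℓM hℓD).2⟩) hq hqM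
  haveI := H51.isGalois_Qbar
  obtain ⟨A, hA⟩ := exists_liesOverPrime (AlgebraicClosure ℚ) hq
  obtain ⟨φ, hφ⟩ := exists_isFrobeniusAt (L := AlgebraicClosure ℚ) hq hA
  have htr := trace_zRep_eq hΔ hns hg hD h hq hqM hqp hA hφ hz
  have htr' := zRep_trace_of_ns hΔ hns hq hgood hqp hA hφ
  rw [htr] at htr'
  have h3 : z = W.apOfModel q := by exact_mod_cast htr'
  rw [hz, h3]

end Local

/-- every prime has an auxiliary prime with a nonscalar Tate module. -/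
theorem exists_aux (hΔ : W.Δ ≠ 0) {p : ℕ} [hp : Fact p.Prime] (hp2 : p ≠ 2)
    (hirr : W.ModRepIsIrreducible p) (q : ℕ) :
    ∃ (r : ℕ) (_ : Fact r.Prime), q ≠ r ∧ ∃ g : GQ, ∀ c : ℤ_[r], rr (WQ W) r g ≠ c • 1 := by
  by_cases hq : q = 2
  · exact ⟨p, hp, by rw [hq]; exact hp2.symm, exists_nonscalar_of_irr hΔ hirr⟩
  · haveI := isElliptic_WQ hΔ
    haveI : Fact (Nat.Prime 2) := ⟨Nat.prime_two⟩
    exact ⟨2, inferInstance, hq, exists_nonscalar_two (WQ W)⟩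

/-- **Conductor-level matching for newforms of squarefree level** (unconditional). -/
theorem level_eq_of_squarefree (hΔ : W.Δ ≠ 0) (hss : W.IsSemistableModel)
    {p : ℕ} [hp : Fact p.Prime] (hp2 : p ≠ 2) (hirr : W.ModRepIsIrreducible p)
    (hg : g.IsNewform) {D : ℕ} (hD : D ≠ 0)
    (h : ∀ ℓ : ℕ, ℓ.Prime → ¬ ℓ ∣ M → ¬ ℓ ∣ D →
      W.IsGoodPrimeFor ℓ ∧ qCoeff g ℓ = (W.apOfModel ℓ : ℂ))
    (hsq : ∀ q : ℕ, q.Prime → ¬ q ^ 2 ∣ M) :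
    M = W.conductorLevel ∧ ∀ q : ℕ, q.Prime → W.IsGoodPrimeFor q →
      qCoeff g q = (W.apOfModel q : ℂ) := by
  have hM0 : M ≠ 0 := NeZero.ne M
  have hiff : ∀ q : ℕ, q.Prime → (q ∣ M ↔ (q : ℤ) ∣ W.Δ) := by
    intro q hq
    obtain ⟨r, hr, hqr, hns⟩ := exists_aux hΔ hp2 hirr q
    exact ⟨fun hqM => dvd_disc_of_exact hΔ hns hg hD h hq hqr hqM (hsq q hq),
      fun hqΔ => dvd_level_of_dvd_disc hΔ hns hss hg hD h hq hqr hqΔ⟩
  have hMsq : Squarefree M := Nat.squarefree_iff_prime_squarefree.mpr fun q hq hqq =>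
    hsq q hq (by rwa [pow_two])
  refine ⟨?_, fun q hq hgood => ?_⟩
  · rw [← Nat.prod_primeFactors_of_squarefree hMsq,
      ← Nat.prod_primeFactors_of_squarefree W.squarefree_conductorLevel]
    congr 1
    ext q
    simp only [Nat.mem_primeFactors]
    constructor
    · rintro ⟨hq, hqM, -⟩
      exact ⟨hq, (W.prime_dvd_conductorLevel_iff hΔ hq).mpr ((hiff q hq).mp hqM),
        W.conductorLevel_pos.ne'⟩
    · rintro ⟨hq, hqM, -⟩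
      exact ⟨hq, (hiff q hq).mpr ((W.prime_dvd_conductorLevel_iff hΔ hq).mp hqM), hM0⟩
  · obtain ⟨r, hr, hqr, hns⟩ := exists_aux hΔ hp2 hirr q
    exact qCoeff_eq_of_good hΔ hns hg hD h hq hqr (fun hqM => hgood ((hiff q hq).mp hqM)) hgood

/-- **Conductor-level matching for newforms.** -/
theorem level_eq_conductorLevel (HR : RR.TheoremRAux) (hΔ : W.Δ ≠ 0) (hss : W.IsSemistableModel)
    {p : ℕ} [hp : Fact p.Prime] (hp2 : p ≠ 2) (hirr : W.ModRepIsIrreducible p)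
    (hg : g.IsNewform) {D : ℕ} (hD : D ≠ 0)
    (h : ∀ ℓ : ℕ, ℓ.Prime → ¬ ℓ ∣ M → ¬ ℓ ∣ D →
      W.IsGoodPrimeFor ℓ ∧ qCoeff g ℓ = (W.apOfModel ℓ : ℂ))
    (hM3 : ∀ q : ℕ, q.Prime → ¬ q ^ 3 ∣ M) :
    M = W.conductorLevel ∧ ∀ q : ℕ, q.Prime → W.IsGoodPrimeFor q →
      qCoeff g q = (W.apOfModel q : ℂ) := by
  have hM0 : M ≠ 0 := NeZero.ne M
  refine level_eq_of_squarefree hΔ hss hp2 hirr hg hD h fun q hq hq2 => ?_
  obtain ⟨r, hr, hqr, hns⟩ := exists_aux hΔ hp2 hirr q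
  apply factorization_ne_two hΔ hns HR hss hg hD h hq hqr
  have h1 : 2 ≤ M.factorization q := (hq.pow_dvd_iff_le_factorization hM0).mp hq2
  have h2 : ¬ 3 ≤ M.factorization q := fun h3 =>
    hM3 q hq ((hq.pow_dvd_iff_le_factorization hM0).mpr h3)
  omega

/-- the newform attached to a modular model. -/
theorem exists_newform_of_modular (hΔ : W.Δ ≠ 0) {N : ℕ} (hN0 : N ≠ 0)
    (hN : W.IsModularModelOfLevel N) :
    ∃ (L : ℕ) (_ : NeZero L) (g : CuspForm (Gamma0 L) 2) (D : ℕ), L ∣ N ∧ g.IsNewform ∧ D ≠ 0 ∧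
      ∀ ℓ : ℕ, ℓ.Prime → ¬ ℓ ∣ L → ¬ ℓ ∣ D →
        W.IsGoodPrimeFor ℓ ∧ qCoeff g ℓ = (W.apOfModel ℓ : ℂ) := by
  obtain ⟨f, hf, hfW⟩ := hN
  haveI : NeZero N := ⟨hN0⟩
  let D : ℕ := N * W.Δ.natAbs
  have hD : D ≠ 0 := mul_ne_zero hN0 (Int.natAbs_ne_zero.mpr hΔ)
  have hgood : ∀ ℓ : ℕ, ¬ ℓ ∣ D → W.IsGoodPrimeFor ℓ := fun ℓ hℓ hd =>
    hℓ (Dvd.dvd.mul_left (Int.natCast_dvd.mp hd) N)
  obtain ⟨L, hL, g, hLN, hg, hgf⟩ := TC.exists_newform hD (fun ℓ : TC.Pr D => qCoeff f ℓ) N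
    (Dvd.intro _ rfl) f hf.ne_zero (by
      rw [TC.mem_simEig]
      intro ℓ
      exact AL.eigenform_T hf ℓ.2.1 (fun hh => ℓ.2.2 (hh.trans (Dvd.intro _ rfl))))
  exact ⟨L, hL, g, D, hLN, hg, hD, fun ℓ hℓ _ hℓD => ⟨hgood ℓ hℓD, by
      rw [hgf ⟨ℓ, hℓ, hℓD⟩]
      exact hfW ℓ hℓ (hgood ℓ hℓD) (fun hh => hℓD (hh.trans (Dvd.intro _ rfl)))⟩⟩

/-- **Conductor-level matching at squarefree level** (unconditional). -/
theorem exactConductorLevel_of_squarefree (hΔ : W.Δ ≠ 0)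
    (hss : W.IsSemistableModel) {p : ℕ} [hp : Fact p.Prime] (hp2 : p ≠ 2)
    (hirr : W.ModRepIsIrreducible p) {N : ℕ} (hN : W.IsModularModelOfLevel N)
    (hsq : Squarefree N) : Mlc1IsModularModelOfExactConductorLevel W := by
  have hN0 : N ≠ 0 := hsq.ne_zero
  obtain ⟨L, hL, g, D, hLN, hg, hD, h⟩ := exists_newform_of_modular hΔ hN0 hN
  obtain ⟨h1, h2⟩ := level_eq_of_squarefree (M := L) (g := g) hΔ hss hp2 hirr hg hD h
    (fun q hq hq2 => Nat.squarefree_iff_prime_squarefree.mp hsq q hq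
      (by rw [← pow_two]; exact hq2.trans hLN))
  subst h1
  exact ⟨W.conductorLevel, W.conductorLevel_pos, W.squarefree_conductorLevel,
    fun _ hq => W.prime_dvd_conductorLevel_iff hΔ hq, g, hg.1, fun q hq hgood _ => h2 q hq hgood⟩

/-- **Conductor-level matching.** -/
theorem isModularModelOfLevel_conductorLevel (HR : RR.TheoremRAux) (hΔ : W.Δ ≠ 0)
    (hss : W.IsSemistableModel) {p : ℕ} [hp : Fact p.Prime] (hp2 : p ≠ 2)
    (hirr : W.ModRepIsIrreducible p) {N : ℕ} (hN0 : N ≠ 0) (hN : W.IsModularModelOfLevel N)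
    (hN3 : ∀ q : ℕ, q.Prime → ¬ q ^ 3 ∣ N) :
    W.IsModularModelOfLevel W.conductorLevel := by
  obtain ⟨L, hL, g, D, hLN, hg, hD, h⟩ := exists_newform_of_modular hΔ hN0 hN
  obtain ⟨h1, h2⟩ := level_eq_conductorLevel (M := L) (g := g) HR hΔ hss hp2 hirr hg hD h
    (fun q hq hq3 => hN3 q hq (hq3.trans hLN))
  subst h1
  exact ⟨g, hg.1, fun q hq hgood _ => h2 q hq hgood⟩

/-- modularity of exact conductor level. -/
theorem exactConductorLevel (HR : RR.TheoremRAux) (hΔ : W.Δ ≠ 0)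
    (hss : W.IsSemistableModel) {p : ℕ} [hp : Fact p.Prime] (hp2 : p ≠ 2)
    (hirr : W.ModRepIsIrreducible p) {N : ℕ} (hN0 : N ≠ 0) (hN : W.IsModularModelOfLevel N)
    (hN3 : ∀ q : ℕ, q.Prime → ¬ q ^ 3 ∣ N) :
    Mlc1IsModularModelOfExactConductorLevel W :=
  ⟨W.conductorLevel, W.conductorLevel_pos, W.squarefree_conductorLevel,
    fun _ hq => W.prime_dvd_conductorLevel_iff hΔ hq,
    isModularModelOfLevel_conductorLevel HR hΔ hss hp2 hirr hN0 hN hN3⟩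

/-- **S58** from `THEOREM R`. -/
theorem s58_of (HR : RR.TheoremRAux) (W : WeierstrassCurve ℤ) (hss : W.IsSemistableModel) (N : ℕ)
    (p : ℕ) [Fact p.Prime] (hp2 : p ≠ 2) (hirr : W.ModRepIsIrreducible p)
    (hN : W.IsModularModelOfLevel N) (hbad : ∀ ℓ : ℕ, ℓ.Prime → (ℓ : ℤ) ∣ W.Δ → ℓ ∣ N)
    (hN3 : ∀ q : ℕ, q.Prime → ¬ q ^ 3 ∣ N) :
    W.IsModularModelOfLevel W.conductorLevel := by
  have hN0 : N ≠ 0 := by
    rintro rfl
    exact hN3 2 Nat.prime_two (dvd_zero _)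
  have hΔ : W.Δ ≠ 0 := by
    intro h0
    obtain ⟨ℓ, hℓN, hℓ⟩ := Nat.exists_infinite_primes (N + 1)
    have h1 := hbad ℓ hℓ (by rw [h0]; exact dvd_zero _)
    have h2 := Nat.le_of_dvd (Nat.pos_of_ne_zero hN0) h1
    omega
  exact isModularModelOfLevel_conductorLevel HR hΔ hss hp2 hirr hN0 hN hN3

end Fermat.Agent.LM
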